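import Fermat.Agent.Lib.Newform.H563.SqDvd
import Fermat.Agent.Lib.Newform.H958.Spec

/-!
# NEWFORM library (helper563): leaf `LowerU` of the frozen interface `H958/Spec.lean`.
-/

set_option autoImplicit false

noncomputable section

namespace Fermat.Agent.Lib.Newform.H563

open UpperHalfPlane ModularForm CongruenceSubgroup ModularFormClass
open scoped MatrixGroups Manifold

/-- Leaf **LOWER-U**: if `q² ∣ N` then `U_q` maps level `N` to level `N / q`. -/
theorem lowerU : H958.LowerU := by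
  intro N q _ hq hq2 f
  obtain ⟨M, hM⟩ : q ∣ N := dvd_trans (dvd_pow_self q two_ne_zero) hq2
  have hqM : q ∣ M := by
    rw [hM, pow_two] at hq2
    exact (Nat.mul_dvd_mul_iff_left hq.pos).mp hq2
  have hN0 : N ≠ 0 := NeZero.ne N
  have hM0 : M ≠ 0 := by rintro rfl; exact hN0 (by simpa using hM)
  have hdiv : N / q = M := by rw [hM]; exact Nat.mul_div_cancel_left M hq.pos
  have : NeZero M := ⟨hM0⟩
  have : NeZero q := ⟨hq.ne_zero⟩
  have hfN : ∀ γ ∈ (Gamma0 (q * M) : Subgroup (GL (Fin 2) ℝ)), (⇑f) ∣[(2 : ℤ)] γ = ⇑f := by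
    intro γ hγ
    rw [← hM] at hγ
    exact SlashInvariantFormClass.slash_action_eq f γ hγ
  have hinv : ∀ γ ∈ (Gamma0 M : Subgroup (GL (Fin 2) ℝ)),
      (⇑(CuspForm.heckeULin 2 (hM ▸ dvd_mul_right q M : q ∣ N) f)) ∣[(2 : ℤ)] γ
        = ⇑(CuspForm.heckeULin 2 (hM ▸ dvd_mul_right q M : q ∣ N) f) := by
    intro γ hγ
    exact heckeU_slash_of_dvd (2 : ℤ) hqM hfN γ hγ
  rw [hdiv]
  exact ⟨lowerLevel _ hinv, rfl⟩

end Fermat.Agent.Lib.Newform.H563
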