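import Mathlib
import Fermat.Prelude.Def_CuspForm_Newforms
import Fermat.Prelude.Def_ModularForm_HeckeOperatorForms
import Fermat.Prelude.Thm_UpperHalfPlane_eq_of_forall_qCoeff_eq
import Fermat.Prelude.Thm_ModularFormClass_qCoeff_heckeU
import Fermat.Prelude.Thm_ModularFormClass_qCoeff_heckeT
import Fermat.Prelude.Thm_CongruenceSubgroup_one_mem_strictPeriods_Gamma0

/-!
# NEWFORM library (helper563): basic facts

* `lowerLevel` : a cusp form of level `N` whose underlying function is `Γ₀(M)`-invariant is a cusp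
  form of level `M`.
* coefficient facts for Prelude-normalised eigenforms.
-/

set_option autoImplicit false

noncomputable section

namespace Fermat.Agent.Lib.Newform.H563

open UpperHalfPlane ModularForm CongruenceSubgroup ModularFormClass
open scoped MatrixGroups Manifold

/-- A cusp form of level `N` whose underlying function is invariant under `Γ₀(M)` is a cusp form
of level `M` (for `M`, `N` both nonzero: the cusps are the same). -/
def lowerLevel {N M : ℕ} [NeZero N] [NeZero M] {k : ℤ} (f : CuspForm (Gamma0 N) k)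
    (hf : ∀ γ ∈ (Gamma0 M : Subgroup (GL (Fin 2) ℝ)), (⇑f) ∣[k] γ = ⇑f) :
    CuspForm (Gamma0 M) k where
  toFun := f
  slash_action_eq' := hf
  holo' := CuspFormClass.holo f
  zero_at_cusps' := fun {c} hc => by
    have hc' : IsCusp c (Gamma0 N : Subgroup (GL (Fin 2) ℝ)) := by
      rw [Subgroup.IsArithmetic.isCusp_iff_isCusp_SL2Z] at hc ⊢
      exact hc
    exact CuspFormClass.zero_at_cusps f hc'

@[simp] lemma coe_lowerLevel {N M : ℕ} [NeZero N] [NeZero M] {k : ℤ} (f : CuspForm (Gamma0 N) k)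
    (hf : ∀ γ ∈ (Gamma0 M : Subgroup (GL (Fin 2) ℝ)), (⇑f) ∣[k] γ = ⇑f) :
    ⇑(lowerLevel f hf) = ⇑f := rfl

lemma qCoeff_lowerLevel {N M : ℕ} [NeZero N] [NeZero M] {k : ℤ} (f : CuspForm (Gamma0 N) k)
    (hf : ∀ γ ∈ (Gamma0 M : Subgroup (GL (Fin 2) ℝ)), (⇑f) ∣[k] γ = ⇑f) (n : ℕ) :
    qCoeff (lowerLevel f hf) n = qCoeff f n := rfl

variable {N : ℕ} {k : ℤ}

lemma qCoeff_zero_cusp (f : CuspForm (Gamma0 N) k) : qCoeff f 0 = 0 :=
  CuspFormClass.qExpansion_coeff_zero f one_pos (one_mem_strictPeriods_Gamma0 N)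

lemma periodic_cusp (f : CuspForm (Gamma0 N) k) : Function.Periodic (⇑f ∘ ofComplex) 1 :=
  SlashInvariantFormClass.periodic_comp_ofComplex f (one_mem_strictPeriods_Gamma0 N)

lemma bdd_cusp (f : CuspForm (Gamma0 N) k) : IsBoundedAtImInfty (⇑f) := by
  have : Fact (IsCusp OnePoint.infty (Gamma0 N : Subgroup (GL (Fin 2) ℝ))) :=
    ⟨Subgroup.isCusp_of_mem_strictPeriods one_pos (one_mem_strictPeriods_Gamma0 N)⟩
  exact (CuspFormClass.zero_at_infty f).isBoundedAtImInfty

/-- Two cusp forms (possibly of different levels) with the same `q`-coefficients have the same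
underlying function. -/
lemma coe_eq_of_qCoeff_eq {N M : ℕ} (f : CuspForm (Gamma0 N) k) (g : CuspForm (Gamma0 M) k)
    (h : ∀ n, qCoeff f n = qCoeff g n) : (⇑f : ℍ → ℂ) = ⇑g :=
  UpperHalfPlane.eq_of_forall_qCoeff_eq (periodic_cusp f) (CuspFormClass.holo f) (bdd_cusp f)
    (periodic_cusp g) (CuspFormClass.holo g) (bdd_cusp g) h

lemma qCoeff_smul_cusp (c : ℂ) (f : CuspForm (Gamma0 N) k) (n : ℕ) :
    qCoeff (c • ⇑f) n = c * qCoeff f n := by
  unfold qCoeff
  rw [ModularForm.qExpansion_smul one_pos (one_mem_strictPeriods_Gamma0 N) c f]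
  simp

lemma qCoeff_heckeU_cusp (f : CuspForm (Gamma0 N) k) {p : ℕ} (hp : p ≠ 0) (n : ℕ) :
    qCoeff (heckeU k p ⇑f) n = qCoeff f (n * p) := by
  rw [ModularFormClass.qCoeff_heckeU f (one_mem_strictPeriods_Gamma0 N) hp n]
  rfl

lemma qCoeff_heckeT_cusp (f : CuspForm (Gamma0 N) k) {p : ℕ} (hp : p ≠ 0) (n : ℕ) :
    qCoeff (heckeT k p ⇑f) n
      = qCoeff f (n * p) + if p ∣ n then (p : ℂ) ^ (k - 1) * qCoeff f (n / p) else 0 := by
  rw [ModularFormClass.qCoeff_heckeT f (one_mem_strictPeriods_Gamma0 N) hp n]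
  rfl

section Eigen

variable {f : CuspForm (Gamma0 N) 2}

lemma qCoeff_prime_pow_of_dvd (hf : f.IsNormalizedEigenform) {q : ℕ} (hq : q.Prime)
    (hqN : q ∣ N) (r : ℕ) : qCoeff f (q ^ r) = qCoeff f q ^ r := by
  induction r using Nat.strong_induction_on with
  | _ r ih =>
    match r with
    | 0 => simpa using hf.qCoeff_one
    | 1 => simp
    | (r + 2) =>
      rw [hf.qCoeff_prime_pow_of_dvd q r hq hqN, ih (r + 1) (by omega)]
      ring

/-- For a Prelude-normalised eigenform and a prime `q` dividing the level, `a_{nq} = a_q a_n`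
for every `n`. -/
lemma qCoeff_mul_prime_of_dvd (hf : f.IsNormalizedEigenform) {q : ℕ} (hq : q.Prime)
    (hqN : q ∣ N) (n : ℕ) : qCoeff f (n * q) = qCoeff f q * qCoeff f n := by
  rcases Nat.eq_zero_or_pos n with rfl | hn
  · simp [qCoeff_zero_cusp]
  obtain ⟨r, m, hm, rfl⟩ := Nat.exists_eq_pow_mul_and_not_dvd hn.ne' q hq.ne_one
  have hcop : ∀ s : ℕ, (q ^ s).Coprime m := fun s =>
    Nat.Coprime.pow_left s ((Nat.Prime.coprime_iff_not_dvd hq).2 hm)
  have h1 : q ^ r * m * q = q ^ (r + 1) * m := by ring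
  rw [h1, hf.qCoeff_mul_of_coprime _ _ (hcop (r + 1)), hf.qCoeff_mul_of_coprime _ _ (hcop r),
    qCoeff_prime_pow_of_dvd hf hq hqN, qCoeff_prime_pow_of_dvd hf hq hqN]
  ring

/-- For a Prelude-normalised eigenform and a prime `q` dividing the level, `U_q f = a_q f`. -/
theorem heckeU_eq_smul [NeZero N] (hf : f.IsNormalizedEigenform) {q : ℕ} (hq : q.Prime)
    (hqN : q ∣ N) : heckeU 2 q ⇑f = qCoeff f q • ⇑f := by
  have h1 : (⇑(CuspForm.heckeULin 2 hqN f) : ℍ → ℂ) = ⇑(qCoeff f q • f) := by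
    refine coe_eq_of_qCoeff_eq _ _ fun n => ?_
    rw [CuspForm.coe_heckeULin_apply, qCoeff_heckeU_cusp f hq.ne_zero,
      qCoeff_mul_prime_of_dvd hf hq hqN]
    exact (qCoeff_smul_cusp _ f n).symm
  exact h1

end Eigen

end Fermat.Agent.Lib.Newform.H563
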