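import Fermat.Agent.Lib.Newform.H563.Basic
import Fermat.Prelude.Sol.S_ModularForm_heckeU_slash_eq_self_of_mem_Gamma0

/-!
# NEWFORM library (helper563): `a_q = 0` for a newform when `q² ∣ N`

Petersson-free: if `q² ∣ N` then `U_q` maps `Γ₀(N)`-invariant functions to `Γ₀(N/q)`-invariant
functions; for a normalised eigenform `U_q f = a_q f`, so `a_q ≠ 0` would make `f` itself a
normalised eigenform of level `N/q`, contradicting the Prelude definition of `IsNewform`.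
-/

set_option autoImplicit false

noncomputable section

namespace Fermat.Agent.Lib.Newform.H563

open UpperHalfPlane ModularForm CongruenceSubgroup ModularFormClass Matrix.SpecialLinearGroup
open scoped MatrixGroups Manifold

open P2MW.S_ModularForm_heckeU_slash_eq_self_of_mem_Gamma0.ModularForm.HeckeSlashInvariance in
/-- If `p ∣ M` then `U_p` maps `Γ₀(pM)`-invariant functions to `Γ₀(M)`-invariant functions. -/
theorem heckeU_slash_of_dvd {M p : ℕ} [NeZero p] (k : ℤ) (hpM : p ∣ M) {f : ℍ → ℂ}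
    (hf : ∀ γ ∈ (Gamma0 (p * M) : Subgroup (GL (Fin 2) ℝ)), f ∣[k] γ = f)
    (γ : GL (Fin 2) ℝ) (hγ : γ ∈ (Gamma0 M : Subgroup (GL (Fin 2) ℝ))) :
    heckeU k p f ∣[k] γ = heckeU k p f := by
  obtain ⟨g, hg, rfl⟩ := Subgroup.mem_map.mp hγ
  have hcM : (M : ℤ) ∣ g 1 0 :=
    (ZMod.intCast_zmod_eq_zero_iff_dvd _ _).mp (CongruenceSubgroup.Gamma0_mem.mp hg)
  have hc : (p : ℤ) ∣ g 1 0 := (Int.natCast_dvd_natCast.mpr hpM).trans hcM
  rw [heckeU_eq_sum_zmod k f, SlashAction.sum_slash]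
  calc ∑ x : ZMod p, (f ∣[k] heckeMatrix p x.val) ∣[k] mapGL ℝ g
      = ∑ x : ZMod p, f ∣[k] heckeMatrix p
          (affinePerm g ((ZMod.intCast_zmod_eq_zero_iff_dvd _ _).mpr hc) x).val := by
        refine Finset.sum_congr rfl fun x _ ↦ ?_
        obtain ⟨g', hg', hmul⟩ := heckeMatrix_mul_of_dvd g hc x
        have hg'N : g' ∈ CongruenceSubgroup.Gamma0 (p * M) := by
          rw [CongruenceSubgroup.Gamma0_mem, hg', ZMod.intCast_zmod_eq_zero_iff_dvd]
          push_cast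
          exact mul_dvd_mul_left _ hcM
        rw [← SlashAction.slash_mul, hmul, SlashAction.slash_mul,
          hf _ (Subgroup.mem_map_of_mem (mapGL ℝ) hg'N)]
    _ = ∑ x : ZMod p, f ∣[k] heckeMatrix p x.val :=
        Equiv.sum_comp (affinePerm g _) (fun x ↦ f ∣[k] heckeMatrix p x.val)

/-- **Atkin–Lehner, bad primes (i).** For a newform (Prelude sense) of level `N` and a prime `q`
with `q² ∣ N`, the `q`-th Fourier coefficient vanishes. -/
theorem qCoeff_eq_zero_of_sq_dvd {N : ℕ} [NeZero N] {f : CuspForm (Gamma0 N) 2}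
    (hf : f.IsNewform) {q : ℕ} (hq : q.Prime) (hq2 : q ^ 2 ∣ N) : qCoeff f q = 0 := by
  by_contra ha
  obtain ⟨M, hM⟩ : q ∣ N := dvd_trans (dvd_pow_self q two_ne_zero) hq2
  have hqM : q ∣ M := by
    rw [hM, pow_two] at hq2
    exact (Nat.mul_dvd_mul_iff_left hq.pos).mp hq2
  have hN0 : N ≠ 0 := NeZero.ne N
  have hM0 : M ≠ 0 := by rintro rfl; exact hN0 (by simpa using hM)
  have : NeZero M := ⟨hM0⟩
  have : NeZero q := ⟨hq.ne_zero⟩
  have hfe := hf.isNormalizedEigenform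
  have hU : heckeU 2 q ⇑f = qCoeff f q • ⇑f := heckeU_eq_smul hfe hq (hM ▸ dvd_mul_right q M)
  have hfN : ∀ γ ∈ (Gamma0 (q * M) : Subgroup (GL (Fin 2) ℝ)), (⇑f) ∣[(2 : ℤ)] γ = ⇑f := by
    intro γ hγ
    rw [← hM] at hγ
    exact SlashInvariantFormClass.slash_action_eq f γ hγ
  have hinv : ∀ γ ∈ (Gamma0 M : Subgroup (GL (Fin 2) ℝ)), (⇑f) ∣[(2 : ℤ)] γ = ⇑f := by
    intro γ hγ
    have h1 := heckeU_slash_of_dvd (2 : ℤ) hqM hfN γ hγ
    rw [hU] at h1
    have h2 : (⇑f : ℍ → ℂ) = (qCoeff f q)⁻¹ • (qCoeff f q • ⇑f) := by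
      rw [smul_smul, inv_mul_cancel₀ ha, one_smul]
    rw [h2, ModularForm.smul_slash, h1]
    congr 1
    obtain ⟨g, -, rfl⟩ := Subgroup.mem_map.mp hγ
    simp [UpperHalfPlane.σ]
  refine hf.2 M ⟨q, by rw [hM]; ring⟩ ?_ ⟨lowerLevel f hinv, ⟨hfe.qCoeff_one, hfe.qCoeff_mul_of_coprime,
    fun p r hp hpM => hfe.qCoeff_prime_pow_of_not_dvd p r hp ?_,
    fun p r hp hpM => hfe.qCoeff_prime_pow_of_dvd p r hp (hM ▸ hpM.mul_left q)⟩, fun _ _ _ => rfl⟩
  · intro h
    rw [hM] at h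
    have : q * M = 1 * M := by rw [one_mul]; exact h.symm
    exact hq.ne_one (Nat.eq_of_mul_eq_mul_right (Nat.pos_of_ne_zero hM0) this)
  · intro hpN
    rw [hM] at hpN
    rcases (Nat.Prime.dvd_mul hp).mp hpN with h | h
    · exact hpM (((Nat.prime_dvd_prime_iff_eq hp hq).mp h) ▸ hqM)
    · exact hpM h

end Fermat.Agent.Lib.Newform.H563
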